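import Fermat.Agent.S55.G.Rec.Loc.H483.Unram
import Fermat.Agent.S55.G.Rec.Loc.OpenH478
import Fermat.Agent.S55.G.Rec.Loc.UpH839
import Fermat.Agent.S55.G.Rec.Loc.DescentH894
import Fermat.Agent.S55.Local.H715.Closed

/-!
# S55 / G / REC / LOC : LOC-UNR and the inertia toolkit with the closed inputs plugged in
(helper483)

* `inertiaLift : InertiaLiftSpec`, `unramLevel : UnramLevelSpec` (unconditional);
* `unram_of_descent : DescentSpec → UnramSpec`;
* `unram : UnramSpec` (LOC-UNR, unconditional, with `H894.descent`).
-/

set_option autoImplicit false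

namespace Fermat.Agent.S55.G.Rec.Loc.H483

open Fermat.Agent.S55.G.Rec Fermat.Agent.S55.G.Rec.Loc

/-- **LOC-INERT2**, unconditional. -/
theorem inertiaLift : InertiaLiftSpec := inertiaLift_of H478.openSpec

/-- **LOC-INERT3**, unconditional. -/
theorem unramLevel : UnramLevelSpec := unramLevel_of H478.openSpec

/-- **LOC-UNR** from LOC-DESC. -/
theorem unram_of_descent (hD : DescentSpec) : UnramSpec :=
  unram_of H478.openSpec hD H839.up Fermat.Agent.S55.Local.Closed.unramUnitsH2

/-- **LOC-UNR**, unconditional. -/
theorem unram : UnramSpec := unram_of_descent H894.descent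

end Fermat.Agent.S55.G.Rec.Loc.H483
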