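import Fermat.Agent.S55.G.Rec.Loc.H483.UnifDescent
import Fermat.Agent.S55.G.Rec.Loc.Unif.Spec

/-!
# S55 / G / REC / LOC / UNIF, sub-leaf UNIF-A : `CharDescentSpec`   (helper483)

`charDescent : Unif.CharDescentSpec` (unconditional), a corollary of `H483.unifDescent`
(which moreover gives the finite-level cup cocycle `f` with `IsAbsInflation q V E₀ f c`).
-/

set_option autoImplicit false

namespace Fermat.Agent.S55.G.Rec.Loc.H483

open Fermat.Agent.S55.G.Rec Fermat.Agent.S55.G.Rec.Loc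

/-- **UNIF-A**, unconditional. -/
theorem charDescent : Unif.CharDescentSpec := by
  intro q _ V hV n _ χ hχ π hπ c hc
  obtain ⟨E₀, h1, h2, ψ, -, -, hunr, hψ, -, -, -⟩ := unifDescent q V hV n χ hχ π hπ c hc
  exact ⟨E₀, h1, h2, ψ, hunr, hψ⟩

end Fermat.Agent.S55.G.Rec.Loc.H483
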