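import Fermat.Agent.S55.G.Rec.Loc.H483.NormInt
import Fermat.Agent.S55.Local.H483.Surj

/-!
# S55 / G / REC / LOC : inertia lifting   (helper483)

`inertiaLift_of (hO : OpenSpec) : InertiaLiftSpec` — an element of the inertia subgroup of a
finite Galois level `E / K_V` is the restriction of an inertial element of `V`.

Proof: finite-level surjectivity of inertia (`Local.H483.exists_inertial_lift`, a counting
argument) and compactness of `Gal(ℚ̄_q / K_V)` for the Krull topology.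
-/

set_option autoImplicit false
set_option linter.unusedSectionVars false
set_option linter.style.haveILetI false

noncomputable section

namespace Fermat.Agent.S55.G.Rec.Loc.H483

open Fermat.Agent.S55.G.Rec Fermat.Agent.S55.G.Rec.Loc Fermat.Agent.S55.Local

section Level

variable (q : ℕ) [Fact q.Prime] (K : IntermediateField ℚ_[q] (PadicAlgCl q))
  (M : IntermediateField K (PadicAlgCl q))

lemma isScalarTower_level : IsScalarTower ℚ_[q] M (PadicAlgCl q) :=
  IsScalarTower.of_algebraMap_eq (fun _ => rfl)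

/-- integrality in a level is the norm condition -/
lemma isInt_level_iff (x : M) : IsInt ℤ_[q] ℚ_[q] M x ↔ ‖(x : PadicAlgCl q)‖ ≤ 1 := by
  haveI := isScalarTower_level q K M
  rw [← H724.isInt_algebraMap_iff724 ℤ_[q] ℚ_[q] M (PadicAlgCl q) x, ← normIntegral q]
  rfl

lemma inMax_level_iff (y : M) :
    Local.H483.InMax ℤ_[q] ℚ_[q] M y ↔ ‖(y : PadicAlgCl q)‖ < 1 := by
  unfold Local.H483.InMax
  rw [isInt_level_iff, isInt_level_iff]
  have hinv : (((y⁻¹ : M)) : PadicAlgCl q) = (y : PadicAlgCl q)⁻¹ := rfl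
  rw [hinv, norm_inv]
  by_cases hy : y = 0
  · subst hy
    simp
  · have hy' : (y : PadicAlgCl q) ≠ 0 := fun h => hy (Subtype.ext h)
    have hpos : 0 < ‖(y : PadicAlgCl q)‖ := norm_pos_iff.2 hy'
    constructor
    · rintro ⟨-, h | h⟩
      · exact absurd h hy
      · rw [not_le] at h
        exact (one_lt_inv₀ hpos).1 h
    · intro h
      exact ⟨h.le, Or.inr (not_le.2 ((one_lt_inv₀ hpos).2 h))⟩

end Level

section Lift

variable (q : ℕ) [Fact q.Prime] (K : IntermediateField ℚ_[q] (PadicAlgCl q))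
  [FiniteDimensional ℚ_[q] K]

/-- Finite-level surjectivity of inertia, for levels `E ≤ E'` inside `ℚ̄_q`. -/
theorem exists_inertial_lift_level (E E' : IntermediateField K (PadicAlgCl q))
    [FiniteDimensional K E] [IsGalois K E] [FiniteDimensional K E'] [IsGalois K E']
    (h : E ≤ E') (ι : E ≃ₐ[K] E)
    (hι : ∀ x : E, ‖(x : PadicAlgCl q)‖ ≤ 1 →
      ‖((ι x : E) : PadicAlgCl q) - (x : PadicAlgCl q)‖ < 1) :
    ∃ σ : E' ≃ₐ[K] E',
      (∀ x : E', ‖(x : PadicAlgCl q)‖ ≤ 1 →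
        ‖((σ x : E') : PadicAlgCl q) - (x : PadicAlgCl q)‖ < 1) ∧
      ∀ x : E, ((σ (IntermediateField.inclusion h x) : E') : PadicAlgCl q) =
        ((ι x : E) : PadicAlgCl q) := by
  letI : Algebra E E' := (IntermediateField.inclusion h).toAlgebra
  haveI : IsScalarTower K E E' := IsScalarTower.of_algebraMap_eq (fun _ => rfl)
  haveI : IsScalarTower ℚ_[q] E E' := IsScalarTower.of_algebraMap_eq (fun _ => rfl)
  obtain ⟨σ, hσ, hσι⟩ := Local.H483.exists_inertial_lift ℤ_[q] ℚ_[q] K E' E ι (fun x hx => by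
    rw [inMax_level_iff]
    exact hι x ((isInt_level_iff q K E x).1 hx))
  refine ⟨σ, fun x hx => ?_, fun x => ?_⟩
  · have := hσ x ((isInt_level_iff q K E' x).2 hx)
    rwa [inMax_level_iff] at this
  · exact congrArg (fun z : E' => (z : PadicAlgCl q)) (hσι x)

/-- for fixed `x`, any condition on `τ x` is open in the Krull topology -/
lemma isOpen_setOf_apply_mem (x : PadicAlgCl q) (T : Set (PadicAlgCl q)) :
    IsOpen {τ : PadicAlgCl q ≃ₐ[K] PadicAlgCl q | τ x ∈ T} := by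
  rw [isOpen_iff_forall_mem_open]
  intro τ₀ hτ₀
  refine ⟨(fun g => τ₀⁻¹ * g) ⁻¹'
    (MulAction.stabilizer (PadicAlgCl q ≃ₐ[K] PadicAlgCl q) x :
      Set (PadicAlgCl q ≃ₐ[K] PadicAlgCl q)), ?_, ?_, ?_⟩
  · intro g hg
    have h1 : (τ₀⁻¹ * g) • x = x := hg
    have h2 : g x = τ₀ x := by
      have := congrArg (fun y => τ₀ y) h1
      simpa [AlgEquiv.smul_def, AlgEquiv.mul_apply] using this
    show g x ∈ T
    rw [h2]
    exact hτ₀
  · exact (stabilizer_isOpen_of_isIntegral x).preimage (continuous_const.mul continuous_id)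
  · show τ₀⁻¹ * τ₀ ∈ MulAction.stabilizer _ x
    rw [inv_mul_cancel]
    exact Subgroup.one_mem _

lemma isClosed_setOf_apply_mem (x : PadicAlgCl q) (T : Set (PadicAlgCl q)) :
    IsClosed {τ : PadicAlgCl q ≃ₐ[K] PadicAlgCl q | τ x ∈ T} := by
  have := isOpen_setOf_apply_mem q K x Tᶜ
  rw [← isOpen_compl_iff]
  convert this using 1
  ext τ
  simp

/-- **Inertia lifting**, in terms of `Gal(ℚ̄_q / K)`. -/
theorem exists_inertial_extension (E : IntermediateField K (PadicAlgCl q))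
    [FiniteDimensional K E] [IsGalois K E] (ι : E ≃ₐ[K] E)
    (hι : ∀ x : E, ‖(x : PadicAlgCl q)‖ ≤ 1 →
      ‖((ι x : E) : PadicAlgCl q) - (x : PadicAlgCl q)‖ < 1) :
    ∃ τ : PadicAlgCl q ≃ₐ[K] PadicAlgCl q,
      (∀ x : PadicAlgCl q, ‖x‖ ≤ 1 → ‖τ x - x‖ < 1) ∧
      ∀ x : E, τ (x : PadicAlgCl q) = ((ι x : E) : PadicAlgCl q) := by
  haveI : IsGalois K (PadicAlgCl q) := inferInstance
  let S : FiniteGaloisIntermediateField K (PadicAlgCl q) →
      Set (PadicAlgCl q ≃ₐ[K] PadicAlgCl q) := fun L =>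
    {τ | (∀ x : E, τ (x : PadicAlgCl q) = ((ι x : E) : PadicAlgCl q)) ∧
      ∀ x ∈ L.toIntermediateField, ‖x‖ ≤ 1 → ‖τ x - x‖ < 1}
  have hmono : ∀ L₁ L₂ : FiniteGaloisIntermediateField K (PadicAlgCl q), L₁ ≤ L₂ →
      S L₂ ⊆ S L₁ := by
    intro L₁ L₂ hle τ hτ
    exact ⟨hτ.1, fun x hx hx1 => hτ.2 x (hle hx) hx1⟩
  have hdir : Directed (· ⊇ ·) S := by
    intro L₁ L₂
    exact ⟨L₁ ⊔ L₂, hmono _ _ le_sup_left, hmono _ _ le_sup_right⟩
  have hclosed : ∀ L, IsClosed (S L) := by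
    intro L
    have h1 : S L = (⋂ x : E, {τ : PadicAlgCl q ≃ₐ[K] PadicAlgCl q |
          τ (x : PadicAlgCl q) ∈ ({((ι x : E) : PadicAlgCl q)} : Set (PadicAlgCl q))}) ∩
        ⋂ x : PadicAlgCl q, {τ : PadicAlgCl q ≃ₐ[K] PadicAlgCl q |
          τ x ∈ {y : PadicAlgCl q | x ∈ L.toIntermediateField → ‖x‖ ≤ 1 → ‖y - x‖ < 1}} := by
      ext τ
      simp only [S, Set.mem_ofPred_eq, Set.mem_inter_iff, Set.mem_iInter, Set.mem_singleton_iff]
    rw [h1]
    exact (isClosed_iInter fun x => isClosed_setOf_apply_mem q K _ _).inter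
      (isClosed_iInter fun x => isClosed_setOf_apply_mem q K _ _)
  have hne : ∀ L, (S L).Nonempty := by
    intro L
    let E' : IntermediateField K (PadicAlgCl q) := E ⊔ L.toIntermediateField
    haveI : FiniteDimensional K E' := inferInstance
    haveI : IsGalois K E' := inferInstance
    have hle : E ≤ E' := le_sup_left
    have hle' : L.toIntermediateField ≤ E' := le_sup_right
    obtain ⟨σ, hσ, hσι⟩ := exists_inertial_lift_level q K E E' hle ι hι
    refine ⟨σ.liftNormal (PadicAlgCl q), fun x => ?_, fun x hx hx1 => ?_⟩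
    · have := σ.liftNormal_commutes (PadicAlgCl q) (IntermediateField.inclusion hle x)
      rw [← hσι x]
      exact this
    · have := σ.liftNormal_commutes (PadicAlgCl q) (⟨x, hle' hx⟩ : E')
      have h2 : σ.liftNormal (PadicAlgCl q) x = ((σ ⟨x, hle' hx⟩ : E') : PadicAlgCl q) := this
      rw [h2]
      exact hσ ⟨x, hle' hx⟩ hx1
  obtain ⟨τ, hτ⟩ := IsCompact.nonempty_iInter_of_directed_nonempty_isCompact_isClosed S hdir hne
    (fun L => (hclosed L).isCompact) hclosed
  rw [Set.mem_iInter] at hτ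
  refine ⟨τ, fun x hx => ?_, (hτ ⊥).1⟩
  exact (hτ (FiniteGaloisIntermediateField.adjoin K {x})).2 x
    (FiniteGaloisIntermediateField.subset_adjoin K {x} (Set.mem_singleton x)) hx

end Lift

/-- **LOC-INERT2** inertia lifting. -/
theorem inertiaLift_of (hO : OpenSpec) : InertiaLiftSpec := by
  intro q _ V hV E _ _ ι hι
  obtain ⟨hfin, hfix⟩ := hO q V hV
  haveI := hfin
  obtain ⟨τ, hτ1, hτ2⟩ := exists_inertial_extension q (fixedFld q V) E ι hι
  have hmem0 : τ.restrictScalars ℚ_[q] ∈ (fixedFld q V).fixingSubgroup :=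
    (IntermediateField.mem_fixingSubgroup_iff _ _).2 (fun x hx => τ.commutes ⟨x, hx⟩)
  have hmem : τ.restrictScalars ℚ_[q] ∈ V := hfix.le hmem0
  refine ⟨⟨τ.restrictScalars ℚ_[q], hmem⟩, fun x hx => hτ1 x hx, ?_⟩
  ext x
  rw [resHom_apply_coe]
  exact hτ2 x

end Fermat.Agent.S55.G.Rec.Loc.H483
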