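import Fermat.Agent.S55.G.Rec.Loc.Spec
import Fermat.Agent.S55.Local.Spec2

/-!
# S55 / G / REC / LOC : inertia toolkit, interface   (helper483)

Shared input of the leaves LOC-UNR (`UnramSpec`) and LOC-UNIF (`UnifSpec`): both have hypotheses
about the *inertial* elements of `V ≤ Gal(ℚ̄_q/ℚ_q)` (`IsInertial`, a condition on ALL of `ℚ̄_q`)
and must produce a finite UNRAMIFIED level.  The bridge is

* `InertiaLiftSpec` : an element of the inertia subgroup of a finite Galois level `E / K_V`
  is the restriction of an inertial element of `V`;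
* `UnramLevelSpec` : inside every finite Galois level `E / K_V` there is a finite Galois
  UNRAMIFIED level `E₀ ≤ E` (the fixed field of inertia) such that the kernel of
  `V → Gal(E₀/K_V)` consists of the products `i * n`, `i` inertial, `n` trivial on `E`.

Unramified is `Local.IsUnram ℤ_[q] ℚ_[q] E₀ K_V` (base `(ℤ_q, ℚ_q)` of the `Local` core), so that
`Local.UnramUnitsH2Statement`, `Local.UnramCyclicStatement`, ... apply directly.
Producer: helper483 (files `Loc/H483/*.lean`).
-/

set_option autoImplicit false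

noncomputable section

namespace Fermat.Agent.S55.G.Rec.Loc.H483

open Fermat.Agent.S55.G.Rec Fermat.Agent.S55.G.Rec.Loc

/-- `ι ∈ Gal(E/K_V)` acts trivially on the residue field of `E` (norm description). -/
def IsInertialOn (q : ℕ) [Fact q.Prime] (V : Subgroup (PadicAlgCl q ≃ₐ[ℚ_[q]] PadicAlgCl q))
    (E : IntermediateField (fixedFld q V) (PadicAlgCl q)) (ι : E ≃ₐ[fixedFld q V] E) : Prop :=
  ∀ x : E, ‖(x : PadicAlgCl q)‖ ≤ 1 → ‖((ι x : E) : PadicAlgCl q) - (x : PadicAlgCl q)‖ < 1

/-- **LOC-INERT1** norm versus integrality: an element of `ℚ̄_q` has norm `≤ 1` iff it is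
integral over `ℤ_q` (in the sense `Local.IsInt` of the `Local` core, base `(ℤ_q, ℚ_q)`). -/
def NormIntegralSpec : Prop :=
  ∀ (q : ℕ) [Fact q.Prime] (x : PadicAlgCl q),
    ‖x‖ ≤ 1 ↔ Fermat.Agent.S55.Local.IsInt ℤ_[q] ℚ_[q] (PadicAlgCl q) x

/-- **LOC-INERT2** inertia lifting: an element of the inertia subgroup of a finite Galois level
`E / K_V` is the restriction of an inertial element of `V`. -/
def InertiaLiftSpec : Prop :=
  ∀ (q : ℕ) [Fact q.Prime] (V : Subgroup (PadicAlgCl q ≃ₐ[ℚ_[q]] PadicAlgCl q)),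
    IsOpenL q V →
    ∀ (E : IntermediateField (fixedFld q V) (PadicAlgCl q))
      [FiniteDimensional (fixedFld q V) E] [IsGalois (fixedFld q V) E]
      (ι : E ≃ₐ[fixedFld q V] E), IsInertialOn q V E ι →
      ∃ τ : ↥V, IsInertial q (τ : PadicAlgCl q ≃ₐ[ℚ_[q]] PadicAlgCl q) ∧ resHom q V E τ = ι

/-- **LOC-INERT3** the unramified level inside a finite Galois level: `E₀ ≤ E` finite Galois and
unramified over `K_V`, and `w ∈ V` is trivial on `E₀` iff `w = i * n` with `i` inertial and `n`
trivial on `E`. -/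
def UnramLevelSpec : Prop :=
  ∀ (q : ℕ) [Fact q.Prime] (V : Subgroup (PadicAlgCl q ≃ₐ[ℚ_[q]] PadicAlgCl q)),
    IsOpenL q V →
    ∀ (E : IntermediateField (fixedFld q V) (PadicAlgCl q))
      [FiniteDimensional (fixedFld q V) E] [IsGalois (fixedFld q V) E],
      ∃ (E₀ : IntermediateField (fixedFld q V) (PadicAlgCl q))
        (_ : FiniteDimensional (fixedFld q V) E₀) (_ : IsGalois (fixedFld q V) E₀),
        E₀ ≤ E ∧ Fermat.Agent.S55.Local.IsUnram ℤ_[q] ℚ_[q] E₀ (fixedFld q V) ∧
        ∀ w : ↥V, resHom q V E₀ w = 1 ↔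
          ∃ i n : ↥V, IsInertial q (i : PadicAlgCl q ≃ₐ[ℚ_[q]] PadicAlgCl q) ∧
            resHom q V E n = 1 ∧ w = i * n

end Fermat.Agent.S55.G.Rec.Loc.H483
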