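import Fermat.Agent.S55.G.Rec.Loc.H483.InertiaSpec
import Fermat.Agent.S55.Local.H724.Ramification

/-!
# S55 / G / REC / LOC : norm versus integrality in `ℚ̄_q`   (helper483)

`normIntegral : NormIntegralSpec` — `‖x‖ ≤ 1 ↔ x` integral over `ℤ_q`, for `x : PadicAlgCl q`
(the norm of `PadicAlgCl q` is the spectral norm, so this is `spectralValue_le_one_iff` for the
minimal polynomial), and consequences for intermediate fields.
-/

set_option autoImplicit false

noncomputable section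

namespace Fermat.Agent.S55.G.Rec.Loc.H483

open Fermat.Agent.S55.G.Rec Fermat.Agent.S55.G.Rec.Loc Fermat.Agent.S55.Local Polynomial

section

variable (q : ℕ) [Fact q.Prime]

lemma toL_padic_eq :
    toL ℤ_[q] ℚ_[q] (PadicAlgCl q) = algebraMap ℤ_[q] (PadicAlgCl q) := by
  ext a
  exact (IsScalarTower.algebraMap_apply ℤ_[q] ℚ_[q] (PadicAlgCl q) a).symm

lemma isInt_padic_iff (x : PadicAlgCl q) :
    IsInt ℤ_[q] ℚ_[q] (PadicAlgCl q) x ↔ IsIntegral ℤ_[q] x := by
  unfold IsInt IsIntegral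
  rw [toL_padic_eq]

theorem norm_le_one_iff_isIntegral (x : PadicAlgCl q) : ‖x‖ ≤ 1 ↔ IsIntegral ℤ_[q] x := by
  have hint : IsIntegral ℚ_[q] x := Algebra.IsIntegral.isIntegral x
  rw [← PadicAlgCl.spectralNorm_eq, spectralNorm, spectralValue_le_one_iff (minpoly.monic hint)]
  constructor
  · intro h
    have hl : minpoly ℚ_[q] x ∈ Polynomial.lifts (algebraMap ℤ_[q] ℚ_[q]) := by
      rw [Polynomial.lifts_iff_coeff_lifts]
      intro n
      exact ⟨⟨(minpoly ℚ_[q] x).coeff n, h n⟩, rfl⟩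
    obtain ⟨p, hp, -, hmonic⟩ :=
      Polynomial.lifts_and_degree_eq_and_monic hl (minpoly.monic hint)
    refine ⟨p, hmonic, ?_⟩
    have h1 : Polynomial.eval₂ (algebraMap ℤ_[q] (PadicAlgCl q)) x p =
        Polynomial.eval₂ (algebraMap ℚ_[q] (PadicAlgCl q)) x
          (p.map (algebraMap ℤ_[q] ℚ_[q])) := by
      rw [Polynomial.eval₂_map, IsScalarTower.algebraMap_eq ℤ_[q] ℚ_[q] (PadicAlgCl q)]
    rw [h1, hp]
    exact minpoly.aeval ℚ_[q] x
  · intro hx n
    rw [minpoly.isIntegrallyClosed_eq_field_fractions' ℚ_[q] hx, Polynomial.coeff_map]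
    exact PadicInt.norm_le_one _

/-- **LOC-INERT1** -/
theorem normIntegral : NormIntegralSpec := by
  intro q _ x
  rw [isInt_padic_iff]
  exact norm_le_one_iff_isIntegral q x

end

end Fermat.Agent.S55.G.Rec.Loc.H483
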