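import Fermat.Agent.S55.G.Rec.Loc.H483.Unram
import Fermat.Agent.S55.G.Rec.Loc.OpenH478
import Fermat.Agent.S55.G.Rec.Loc.DescentH894

/-!
# S55 / G / REC / LOC, leaf LOC-UNIF, part (2a) : descent to the unramified level  (helper483)

`unifDescent_of (hO : OpenSpec) (hD : DescentSpec) : UnifDescentSpec`

From the hypotheses of `UnifSpec` (a character `χ` of `V` trivial on the inertial elements, a
uniformizer `π` of `K_V`, a level cocycle `c` which is the cup of `π` with `χ`) we produce a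
finite Galois UNRAMIFIED level `E₀ / K_V`, a character `ψ` of `Gal(E₀/K_V)` with
`χ = ψ ∘ resHom`, the unit `π₀ : K_Vˣ` lying under `π`, and the finite-level cup cocycle `f` of
`(π₀, ψ)`, whose absolute inflation is `c`.  The invariant of `cls f` is then a finite-level
computation in an unramified extension (helper355, `L.H355.inv_cupChar_uniformizer`).
-/

set_option autoImplicit false
set_option linter.unusedSectionVars false
set_option linter.style.haveILetI false

noncomputable section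

namespace Fermat.Agent.S55.G.Rec.Loc.H483

open groupCohomology Fermat.Agent.S55.G.Rec Fermat.Agent.S55.G.Rec.Loc Fermat.Agent.S55.Local

/-- **LOC-UNIF (2a)**: descent of the data of `UnifSpec` to a finite unramified level. -/
def UnifDescentSpec : Prop :=
  ∀ (q : ℕ) [Fact q.Prime] (V : Subgroup (PadicAlgCl q ≃ₐ[ℚ_[q]] PadicAlgCl q)),
    IsOpenL q V → ∀ (n : ℕ) [NeZero n] (χ : ↥V →* Multiplicative (ZMod n)),
      (∀ τ : ↥V, IsInertial q (τ : PadicAlgCl q ≃ₐ[ℚ_[q]] PadicAlgCl q) → χ τ = 1) →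
      ∀ π : (PadicAlgCl q)ˣ, IsUniformizer q V (π : PadicAlgCl q) →
      ∀ c : ↥(levelCocycles₂ (lHom q V) (lModOn q V)),
        IsCupChar (toLMod q V π) χ (c : ↥V × ↥V → lModOn q V) →
        ∃ (E₀ : IntermediateField (fixedFld q V) (PadicAlgCl q))
          (_ : FiniteDimensional (fixedFld q V) E₀) (_ : IsGalois (fixedFld q V) E₀)
          (ψ : (E₀ ≃ₐ[fixedFld q V] E₀) →* Multiplicative (ZMod n))
          (π₀ : (↥(fixedFld q V))ˣ)
          (f : cocycles₂ (L.unitsRep (fixedFld q V) E₀)),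
          Fermat.Agent.S55.Local.IsUnram ℤ_[q] ℚ_[q] E₀ (fixedFld q V) ∧
          (∀ g : ↥V, χ g = ψ (resHom q V E₀ g)) ∧
          (((π₀ : fixedFld q V) : PadicAlgCl q) = (π : PadicAlgCl q)) ∧
          (∀ g h : E₀ ≃ₐ[fixedFld q V] E₀,
            (f : (E₀ ≃ₐ[fixedFld q V] E₀) × (E₀ ≃ₐ[fixedFld q V] E₀) →
                L.unitsRep (fixedFld q V) E₀) (g, h) =
              (((Multiplicative.toAdd (ψ g)).val + (Multiplicative.toAdd (ψ h)).val) / n) •
                ((Additive.ofMul (Units.map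
                  (algebraMap (fixedFld q V) E₀ : ↥(fixedFld q V) →* ↥E₀) π₀) :
                    Additive (↥E₀)ˣ) : L.unitsRep (fixedFld q V) E₀)) ∧
          IsAbsInflation q V E₀ f c

section Arith

/-- the carry of `x` and `-x` is `1` for `x ≠ 0` -/
lemma carry_neg {n : ℕ} [NeZero n] (x : ZMod n) (hx : x ≠ 0) : (x.val + (-x).val) / n = 1 := by
  haveI : NeZero x := ⟨hx⟩
  rw [ZMod.val_neg_of_ne_zero]
  have h1 : x.val < n := ZMod.val_lt x
  rw [Nat.add_sub_cancel' h1.le]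
  exact Nat.div_self (Nat.pos_of_ne_zero (NeZero.ne n))

lemma carry_zero_left {n : ℕ} [NeZero n] (x : ZMod n) : ((0 : ZMod n).val + x.val) / n = 0 := by
  rw [ZMod.val_zero, zero_add]
  exact Nat.div_eq_of_lt (ZMod.val_lt x)

end Arith

set_option maxHeartbeats 1600000 in
set_option synthInstance.maxHeartbeats 400000 in
/-- **LOC-UNIF (2a)**. -/
theorem unifDescent_of (hO : OpenSpec) (hD : DescentSpec) : UnifDescentSpec := by
  intro q _ V hV n _ χ hχ π hπ c hc
  obtain ⟨hfin, hfix⟩ := hO q V hV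
  haveI := hfin
  obtain ⟨E, hEfin, hEgal, fE, -, hinf⟩ := hD q V hV c ⊥ inferInstance
  haveI := hEfin
  haveI := hEgal
  obtain ⟨E₀, hE₀fin, hE₀gal, hle, hunr, hker⟩ := unramLevel_of hO q V hV E
  haveI := hE₀fin
  haveI := hE₀gal
  -- the multiplicative cocycle on `V`
  let C : ↥V × ↥V → (PadicAlgCl q)ˣ := fun p => Additive.toMul ((c : ↥V × ↥V → lModOn q V) p)
  let k : ↥V → ↥V → ℕ := fun g h =>
    ((Multiplicative.toAdd (χ g)).val + (Multiplicative.toAdd (χ h)).val) / n
  have hCk : ∀ g h : ↥V, C (g, h) = π ^ k g h := by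
    intro g h
    show Additive.toMul ((c : ↥V × ↥V → lModOn q V) (g, h)) = _
    rw [hc g h]
    rfl
  have hCE : ∀ g g' h h' : ↥V, resHom q V E g = resHom q V E g' →
      resHom q V E h = resHom q V E h' → C (g, h) = C (g', h') := by
    intro g g' h h' hg hh
    show Additive.toMul ((c : ↥V × ↥V → lModOn q V) (g, h)) =
      Additive.toMul ((c : ↥V × ↥V → lModOn q V) (g', h'))
    rw [hinf]
    unfold inflCochain₂
    simp only [hg, hh]
  have hCcoc : ∀ g h j : ↥V, C (g * h, j) * C (g, h) =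
      (g : PadicAlgCl q ≃ₐ[ℚ_[q]] PadicAlgCl q) • C (h, j) * C (g, h * j) := by
    intro g h j
    have hc' := (mem_cocycles₂_iff (A := lModOn q V) (c : ↥V × ↥V → lModOn q V)).1
      ((mem_levelCocycles₂_iff _ _ _).1 c.2).1 g h j
    exact congrArg Additive.toMul hc'
  -- `π` is not a root of unity
  have hπpow : ∀ m : ℕ, π ^ m = 1 → m = 0 := by
    intro m hm
    by_contra hne
    have h1 : ‖(π : PadicAlgCl q)‖ ^ m < 1 :=
      pow_lt_one₀ (norm_nonneg _) hπ.2.2.1 hne
    have h2 : ‖(π : PadicAlgCl q)‖ ^ m = 1 := by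
      rw [← norm_pow, ← Units.val_pow_eq_pow_val, hm, Units.val_one, norm_one]
    rw [h2] at h1
    exact lt_irrefl _ h1
  -- `χ` is trivial on the kernel of `V → Gal(E / K)`
  have hχE : ∀ σ : ↥V, resHom q V E σ = 1 → χ σ = 1 := by
    intro σ hσ
    by_contra hne
    have e1 : C (σ, σ⁻¹) = C (1, σ⁻¹) := hCE _ _ _ _ (by rw [hσ, map_one]) rfl
    have e2 : k 1 σ⁻¹ = 0 := by
      show ((Multiplicative.toAdd (χ 1)).val + _) / n = 0
      rw [map_one, toAdd_one]
      exact carry_zero_left _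
    have e3 : k σ σ⁻¹ = 1 := by
      show ((Multiplicative.toAdd (χ σ)).val + (Multiplicative.toAdd (χ σ⁻¹)).val) / n = 1
      rw [map_inv, toAdd_inv]
      exact carry_neg _ (fun h => hne (by
        have : χ σ = Multiplicative.ofAdd (Multiplicative.toAdd (χ σ)) := rfl
        rw [this, h]
        rfl))
    rw [hCk, hCk, e2, e3, pow_zero] at e1
    exact absurd (hπpow 1 e1) one_ne_zero
  -- `χ` is trivial on the kernel of `V → Gal(E₀ / K)`
  have hχ0 : ∀ w : ↥V, resHom q V E₀ w = 1 → χ w = 1 := by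
    intro w hw
    obtain ⟨i, n', hi, hn', rfl⟩ := (hker w).1 hw
    rw [map_mul, hχ i hi, hχE n' hn', mul_one]
  -- the character of `Gal(E₀ / K)`
  have hsurj := resHom_surjective q V hfix E₀
  let ψ : (E₀ ≃ₐ[fixedFld q V] E₀) →* Multiplicative (ZMod n) :=
    (resHom q V E₀).liftOfRightInverse (Function.surjInv hsurj)
      (Function.rightInverse_surjInv hsurj)
      ⟨χ, fun w hw => MonoidHom.mem_ker.2 (hχ0 w (MonoidHom.mem_ker.1 hw))⟩
  have hψ : ∀ g : ↥V, ψ (resHom q V E₀ g) = χ g := fun g =>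
    MonoidHom.liftOfRightInverse_comp_apply _ _ _ _ g
  -- the uniformizer as a unit of `K_V`
  have hπK : (π : PadicAlgCl q) ∈ fixedFld q V := by
    rw [IntermediateField.mem_fixedField_iff]
    intro τ hτ
    exact hπ.1 τ hτ
  let π₀ : (↥(fixedFld q V))ˣ := Units.mk0 ⟨(π : PadicAlgCl q), hπK⟩
    (fun h => π.ne_zero (congrArg Subtype.val h))
  let πE : (↥E₀)ˣ := Units.map (algebraMap (fixedFld q V) E₀ : ↥(fixedFld q V) →* ↥E₀) π₀
  have hπE : unitsIncl q V E₀ πE = π := Units.ext rfl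
  -- the finite-level cocycle
  let c₀ : (E₀ ≃ₐ[fixedFld q V] E₀) × (E₀ ≃ₐ[fixedFld q V] E₀) → (↥E₀)ˣ := fun p =>
    πE ^ (((Multiplicative.toAdd (ψ p.1)).val + (Multiplicative.toAdd (ψ p.2)).val) / n)
  have hc₀ : ∀ g h : ↥V,
      unitsIncl q V E₀ (c₀ (resHom q V E₀ g, resHom q V E₀ h)) = C (g, h) := by
    intro g h
    show unitsIncl q V E₀ (πE ^ _) = _
    rw [map_pow, hπE, hψ, hψ, hCk]
  have hcoc₀ := isMulCocycle₂_of_surjective
      (fun (g : ↥V) (u : (PadicAlgCl q)ˣ) => (g : PadicAlgCl q ≃ₐ[ℚ_[q]] PadicAlgCl q) • u)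
      (resHom q V E₀) hsurj (unitsIncl q V E₀) (unitsIncl_injective q V E₀)
      (fun g u => Units.ext (resHom_apply_coe q V E₀ g _)) C hCcoc c₀ hc₀
  let f : cocycles₂ (L.unitsRep (fixedFld q V) E₀) := cocyclesOfIsMulCocycle₂ hcoc₀
  refine ⟨E₀, hE₀fin, hE₀gal, ψ, π₀, f, hunr, fun g => (hψ g).symm, rfl, fun g h => rfl, ?_⟩
  funext p
  apply Additive.toMul.injective
  show C (p.1, p.2) = unitsIncl q V E₀ (c₀ (resHom q V E₀ p.1, resHom q V E₀ p.2))
  rw [hc₀]

/-- **LOC-UNIF (2a)**, unconditional. -/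
theorem unifDescent : UnifDescentSpec := unifDescent_of H478.openSpec H894.descent

end Fermat.Agent.S55.G.Rec.Loc.H483
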