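import Fermat.Agent.S55.G.Rec.Loc.H483.UnramLevel

/-!
# S55 / G / REC / LOC, leaf LOC-UNR : `UnramSpec`   (helper483)

`unram_of (hO : OpenSpec) (hD : DescentSpec) (hUp : UpSpec)
    (hH2 : Local.UnramUnitsH2Statement) : UnramSpec`

A level cocycle `c` on `V` with unit values, invariant under right translation by inertial
elements and with values fixed by the inertial elements, is a level coboundary:
`c` descends to a finite Galois level `E` (DescentSpec), then to the unramified level `E₀ ≤ E`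
(`unramLevel_of`), where `H²(Gal(E₀/K), U_{E₀}) = 0` (`Local.UnramUnitsH2Statement`); the
finite-level coboundary inflates to a level coboundary (UpSpec).
-/

set_option autoImplicit false
set_option linter.unusedSectionVars false
set_option linter.style.haveILetI false

noncomputable section

namespace Fermat.Agent.S55.G.Rec.Loc.H483

open groupCohomology Fermat.Agent.S55.G.Rec Fermat.Agent.S55.G.Rec.Loc Fermat.Agent.S55.Local

section Generic

/-- descent of the multiplicative 2-cocycle condition along a surjection of groups and an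
injection of modules -/
lemma isMulCocycle₂_of_surjective {G Q M M₀ : Type*} [Group G] [Group Q] [CommGroup M]
    [CommGroup M₀] [MulDistribMulAction Q M₀] (act : G → M → M) (r : G →* Q)
    (hr : Function.Surjective r) (incl : M₀ →* M) (hincl : Function.Injective incl)
    (heq : ∀ g u, incl (r g • u) = act g (incl u)) (C : G × G → M)
    (hC : ∀ g h j, C (g * h, j) * C (g, h) = act g (C (h, j)) * C (g, h * j))
    (c₀ : Q × Q → M₀) (h : ∀ g h, incl (c₀ (r g, r h)) = C (g, h)) : IsMulCocycle₂ c₀ := by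
  intro a b d
  obtain ⟨g, rfl⟩ := hr a
  obtain ⟨h', rfl⟩ := hr b
  obtain ⟨j, rfl⟩ := hr d
  apply hincl
  rw [map_mul, map_mul, heq, ← map_mul r, ← map_mul r, h, h, h, h]
  exact hC g h' j

end Generic

section Aux

variable (q : ℕ) [Fact q.Prime] (V : Subgroup (PadicAlgCl q ≃ₐ[ℚ_[q]] PadicAlgCl q))

/-- restriction to a normal level is surjective when `V` is the fixing subgroup of `K_V` -/
lemma resHom_surjective (hfix : (fixedFld q V).fixingSubgroup = V)
    (E : IntermediateField (fixedFld q V) (PadicAlgCl q)) [Normal (fixedFld q V) E] :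
    Function.Surjective (resHom q V E) := by
  intro a
  haveI : Normal (fixedFld q V) (PadicAlgCl q) := inferInstance
  let τ : PadicAlgCl q ≃ₐ[fixedFld q V] PadicAlgCl q := a.liftNormal (PadicAlgCl q)
  have hmem0 : τ.restrictScalars ℚ_[q] ∈ (fixedFld q V).fixingSubgroup :=
    (IntermediateField.mem_fixingSubgroup_iff _ _).2 (fun x hx => τ.commutes ⟨x, hx⟩)
  refine ⟨⟨τ.restrictScalars ℚ_[q], hfix.le hmem0⟩, ?_⟩
  ext x
  rw [resHom_apply_coe]
  exact a.liftNormal_commutes (PadicAlgCl q) x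

/-- an element of `ℚ̄_q` fixed by all elements of `V` which fix `E₀` pointwise lies in `E₀` -/
lemma mem_level_of_fixed (hfix : (fixedFld q V).fixingSubgroup = V)
    (E₀ : IntermediateField (fixedFld q V) (PadicAlgCl q)) (x : PadicAlgCl q)
    (hx : ∀ w : ↥V, (∀ y ∈ E₀, (w : PadicAlgCl q ≃ₐ[ℚ_[q]] PadicAlgCl q) y = y) →
      (w : PadicAlgCl q ≃ₐ[ℚ_[q]] PadicAlgCl q) x = x) : x ∈ E₀ := by
  haveI : IsGalois (fixedFld q V) (PadicAlgCl q) := inferInstance
  rw [← InfiniteGalois.fixedField_fixingSubgroup E₀, IntermediateField.mem_fixedField_iff]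
  intro τ hτ
  have hmem0 : τ.restrictScalars ℚ_[q] ∈ (fixedFld q V).fixingSubgroup :=
    (IntermediateField.mem_fixingSubgroup_iff _ _).2 (fun x hx => τ.commutes ⟨x, hx⟩)
  exact hx ⟨τ.restrictScalars ℚ_[q], hfix.le hmem0⟩
    (fun y hy => (IntermediateField.mem_fixingSubgroup_iff _ _).1 hτ y hy)

/-- a unit of `ℚ̄_q` lying in a level, as a unit of the level -/
def unitOfMem (E₀ : IntermediateField (fixedFld q V) (PadicAlgCl q)) (u : (PadicAlgCl q)ˣ)
    (hu : (u : PadicAlgCl q) ∈ E₀) : (↥E₀)ˣ :=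
  Units.mk0 ⟨(u : PadicAlgCl q), hu⟩ (fun h => u.ne_zero (congrArg Subtype.val h))

@[simp] lemma unitsIncl_unitOfMem (E₀ : IntermediateField (fixedFld q V) (PadicAlgCl q))
    (u : (PadicAlgCl q)ˣ) (hu : (u : PadicAlgCl q) ∈ E₀) :
    unitsIncl q V E₀ (unitOfMem q V E₀ u hu) = u :=
  Units.ext rfl

lemma unitsIncl_injective (E₀ : IntermediateField (fixedFld q V) (PadicAlgCl q)) :
    Function.Injective (unitsIncl q V E₀) := by
  intro a b h
  apply Units.ext
  apply Subtype.ext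
  exact congrArg (fun u : (PadicAlgCl q)ˣ => (u : PadicAlgCl q)) h

end Aux

set_option maxHeartbeats 1600000 in
set_option synthInstance.maxHeartbeats 400000 in
/-- **LOC-UNR.** -/
theorem unram_of (hO : OpenSpec) (hD : DescentSpec) (hUp : UpSpec)
    (hH2 : Local.UnramUnitsH2Statement) : UnramSpec := by
  intro q _ V hV c h1 h2 h3
  obtain ⟨hfin, hfix⟩ := hO q V hV
  haveI := hfin
  obtain ⟨E, hEfin, hEgal, f, -, hinf⟩ := hD q V hV c ⊥ inferInstance
  haveI := hEfin
  haveI := hEgal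
  obtain ⟨E₀, hE₀fin, hE₀gal, hle, hunr, hker⟩ := unramLevel_of hO q V hV E
  haveI := hE₀fin
  haveI := hE₀gal
  -- the multiplicative cocycle on `V`
  let C : ↥V × ↥V → (PadicAlgCl q)ˣ := fun p => Additive.toMul ((c : ↥V × ↥V → lModOn q V) p)
  have hCE : ∀ g h : ↥V, C (g, h) =
      unitsIncl q V E (Additive.toMul ((f : (E ≃ₐ[fixedFld q V] E) × (E ≃ₐ[fixedFld q V] E) →
        L.unitsRep (fixedFld q V) E) (resHom q V E g, resHom q V E h))) := by
    intro g h
    show Additive.toMul ((c : ↥V × ↥V → lModOn q V) (g, h)) = _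
    rw [hinf]
    rfl
  -- the cocycle identity
  have hCcoc : ∀ g h j : ↥V, C (g * h, j) * C (g, h) =
      (g : PadicAlgCl q ≃ₐ[ℚ_[q]] PadicAlgCl q) • C (h, j) * C (g, h * j) := by
    intro g h j
    have hc := (mem_cocycles₂_iff (A := lModOn q V) (c : ↥V × ↥V → lModOn q V)).1
      ((mem_levelCocycles₂_iff _ _ _).1 c.2).1 g h j
    exact congrArg Additive.toMul hc
  -- invariance modulo the kernel of `V → Gal(E / K)`
  have hCE' : ∀ g g' h h' : ↥V, resHom q V E g = resHom q V E g' →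
      resHom q V E h = resHom q V E h' → C (g, h) = C (g', h') := by
    intro g g' h h' hg hh
    rw [hCE, hCE, hg, hh]
  -- invariance modulo the kernel of `V → Gal(E₀ / K)`
  have hC0 : ∀ g g' h h' : ↥V, resHom q V E₀ g = resHom q V E₀ g' →
      resHom q V E₀ h = resHom q V E₀ h' → C (g, h) = C (g', h') := by
    intro g g' h h' hg hh
    have hw : resHom q V E₀ (g⁻¹ * g') = 1 := by rw [map_mul, map_inv, hg, inv_mul_cancel]
    have hw' : resHom q V E₀ (h⁻¹ * h') = 1 := by rw [map_mul, map_inv, hh, inv_mul_cancel]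
    obtain ⟨i, n, hi, hn, hin⟩ := (hker _).1 hw
    obtain ⟨i', n', hi', hn', hin'⟩ := (hker _).1 hw'
    have hg' : g' = g * i * n := by rw [mul_assoc, ← hin, mul_inv_cancel_left]
    have hh' : h' = h * i' * n' := by rw [mul_assoc, ← hin', mul_inv_cancel_left]
    have e1 : C (g', h') = C (g * i, h * i') := by
      apply hCE'
      · rw [hg', map_mul, hn, mul_one]
      · rw [hh', map_mul, hn', mul_one]
    have e2 : C (g * i, h * i') = C (g, h) := congrArg Additive.toMul (h2 g h i i' hi hi')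
    rw [e1, e2]
  -- values in `E₀`
  have hval : ∀ g h : ↥V, ((C (g, h) : (PadicAlgCl q)ˣ) : PadicAlgCl q) ∈ E₀ := by
    intro g h
    apply mem_level_of_fixed q V hfix E₀
    intro w hw
    have hw1 : resHom q V E₀ w = 1 := (resHom_eq_one_iff q V E₀ w).2 hw
    obtain ⟨i, n, hi, hn, rfl⟩ := (hker _).1 hw1
    have hn' := (resHom_eq_one_iff q V E n).1 hn
    have hmemE : ((C (g, h) : (PadicAlgCl q)ˣ) : PadicAlgCl q) ∈ E := by
      rw [hCE]
      exact Subtype.property _
    have e1 : (n : PadicAlgCl q ≃ₐ[ℚ_[q]] PadicAlgCl q) (C (g, h) : PadicAlgCl q) =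
        (C (g, h) : PadicAlgCl q) := hn' _ hmemE
    have e2 : (i : PadicAlgCl q ≃ₐ[ℚ_[q]] PadicAlgCl q) (C (g, h) : PadicAlgCl q) =
        (C (g, h) : PadicAlgCl q) := by
      have := congrArg (fun z : lModOn q V => ((Additive.toMul z : (PadicAlgCl q)ˣ) :
        PadicAlgCl q)) (h3 g h i hi)
      exact this
    show (i : PadicAlgCl q ≃ₐ[ℚ_[q]] PadicAlgCl q)
      ((n : PadicAlgCl q ≃ₐ[ℚ_[q]] PadicAlgCl q) (C (g, h) : PadicAlgCl q)) = _
    rw [e1, e2]
  -- sections
  have hsurj := resHom_surjective q V hfix E₀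
  let s : (E₀ ≃ₐ[fixedFld q V] E₀) → ↥V := Function.surjInv hsurj
  have hs : ∀ a, resHom q V E₀ (s a) = a := Function.surjInv_eq hsurj
  -- the finite-level cocycle
  let c₀ : (E₀ ≃ₐ[fixedFld q V] E₀) × (E₀ ≃ₐ[fixedFld q V] E₀) → (↥E₀)ˣ :=
    fun p => unitOfMem q V E₀ (C (s p.1, s p.2)) (hval _ _)
  have hc₀ : ∀ g h : ↥V, unitsIncl q V E₀ (c₀ (resHom q V E₀ g, resHom q V E₀ h)) = C (g, h) := by
    intro g h
    show unitsIncl q V E₀ (unitOfMem q V E₀ _ _) = _
    rw [unitsIncl_unitOfMem]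
    exact hC0 _ _ _ _ (hs _) (hs _)
  have hc₀' : ∀ a b, unitsIncl q V E₀ (c₀ (a, b)) = C (s a, s b) := fun a b =>
    unitsIncl_unitOfMem q V E₀ _ _
  have hcoc₀ : IsMulCocycle₂ c₀ :=
    isMulCocycle₂_of_surjective
      (fun (g : ↥V) (u : (PadicAlgCl q)ˣ) => (g : PadicAlgCl q ≃ₐ[ℚ_[q]] PadicAlgCl q) • u)
      (resHom q V E₀) hsurj (unitsIncl q V E₀) (unitsIncl_injective q V E₀)
      (fun g u => Units.ext (resHom_apply_coe q V E₀ g _)) C hCcoc c₀ hc₀
  -- unit values
  have hunit : ∀ p, c₀ p ∈ intUnits ℤ_[q] ℚ_[q] E₀ := by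
    intro p
    have hnorm : ‖((C (s p.1, s p.2) : (PadicAlgCl q)ˣ) : PadicAlgCl q)‖ = 1 := h1 _ _
    rw [mem_intUnits, isInt_level_iff, isInt_level_iff]
    constructor
    · show ‖((C (s p.1, s p.2) : (PadicAlgCl q)ˣ) : PadicAlgCl q)‖ ≤ 1
      rw [hnorm]
    · have : (((c₀ p)⁻¹ : (↥E₀)ˣ) : PadicAlgCl q) =
          ((C (s p.1, s p.2) : (PadicAlgCl q)ˣ) : PadicAlgCl q)⁻¹ := by
        rw [Units.val_inv_eq_inv_val]
        rfl
      rw [this, norm_inv, hnorm, inv_one]
  obtain ⟨x, -, hx⟩ := hH2 ℤ_[q] ℚ_[q] (fixedFld q V) E₀ hunr c₀ hcoc₀ hunit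
  have hcob : IsMulCoboundary₂ c₀ := ⟨x, hx⟩
  -- conclusion
  let f₀ : cocycles₂ (L.unitsRep (fixedFld q V) E₀) := cocyclesOfIsMulCocycle₂ hcoc₀
  have hcls : L.cls f₀ = 0 :=
    (H2π_eq_zero_iff f₀).mpr (coboundariesOfIsMulCoboundary₂ hcob).2
  have hinf₀ : IsAbsInflation q V E₀ f₀ c := by
    funext p
    apply Additive.toMul.injective
    show C (p.1, p.2) = unitsIncl q V E₀ (c₀ (resHom q V E₀ p.1, resHom q V E₀ p.2))
    rw [hc₀]
  exact hUp q V hV E₀ f₀ c hinf₀ hcls

end Fermat.Agent.S55.G.Rec.Loc.H483
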