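import Fermat.Agent.S55.G.Rec.Loc.H483.InertiaLift

/-!
# S55 / G / REC / LOC : the unramified level inside a finite Galois level   (helper483)

`unramLevel_of (hO : OpenSpec) : UnramLevelSpec` — for `V` open and `E / K_V` a finite Galois
level, the fixed field `E₀` of the inertia subgroup of `Gal(E/K_V)` is a finite Galois level,
unramified over `K_V` (`Local.IsUnram ℤ_[q] ℚ_[q] E₀ K_V`), and `w ∈ V` is trivial on `E₀` iff
`w = i * n` with `i` inertial and `n` trivial on `E`.
-/

set_option autoImplicit false
set_option linter.unusedSectionVars false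
set_option linter.style.haveILetI false

noncomputable section

namespace Fermat.Agent.S55.G.Rec.Loc.H483

open Fermat.Agent.S55.G.Rec Fermat.Agent.S55.G.Rec.Loc Fermat.Agent.S55.Local

section

variable (q : ℕ) [Fact q.Prime] (V : Subgroup (PadicAlgCl q ≃ₐ[ℚ_[q]] PadicAlgCl q))

/-- the restriction of an inertial element to a level is inertial on the level -/
lemma isInertialOn_resHom (E : IntermediateField (fixedFld q V) (PadicAlgCl q))
    [Normal (fixedFld q V) E] (i : ↥V)
    (hi : IsInertial q (i : PadicAlgCl q ≃ₐ[ℚ_[q]] PadicAlgCl q)) :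
    IsInertialOn q V E (resHom q V E i) := by
  intro x hx
  rw [resHom_apply_coe]
  exact hi x hx

/-- `resHom q V E w = 1` iff `w` fixes `E` pointwise -/
lemma resHom_eq_one_iff (E : IntermediateField (fixedFld q V) (PadicAlgCl q))
    [Normal (fixedFld q V) E] (w : ↥V) :
    resHom q V E w = 1 ↔
      ∀ x ∈ E, (w : PadicAlgCl q ≃ₐ[ℚ_[q]] PadicAlgCl q) x = x := by
  constructor
  · intro h x hx
    have := resHom_apply_coe q V E w ⟨x, hx⟩
    rw [h] at this
    exact this.symm
  · intro h
    ext x
    rw [resHom_apply_coe]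
    exact h x x.2

end

/-- **LOC-INERT3** the unramified level. -/
theorem unramLevel_of (hO : OpenSpec) : UnramLevelSpec := by
  intro q _ V hV E _ _
  obtain ⟨hfin, hfix⟩ := hO q V hV
  haveI := hfin
  obtain ⟨I, hInormal, hmem, hcard⟩ :=
    Local.H483.exists_inertia ℤ_[q] ℚ_[q] (fixedFld q V) E
  haveI := hInormal
  have hmem' : ∀ σ : E ≃ₐ[fixedFld q V] E, σ ∈ I ↔ IsInertialOn q V E σ := by
    intro σ
    rw [hmem]
    constructor
    · intro h x hx
      have := h x ((isInt_level_iff q (fixedFld q V) E x).2 hx)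
      rwa [inMax_level_iff] at this
    · intro h x hx
      rw [inMax_level_iff]
      exact h x ((isInt_level_iff q (fixedFld q V) E x).1 hx)
  let E₀' : IntermediateField (fixedFld q V) E := IntermediateField.fixedField I
  let E₀ : IntermediateField (fixedFld q V) (PadicAlgCl q) := IntermediateField.lift E₀'
  have hle : E₀ ≤ E := IntermediateField.lift_le E₀'
  haveI : IsGalois (fixedFld q V) E₀' := IsGalois.of_fixedField_normal_subgroup I
  haveI : IsGalois (fixedFld q V) E₀ := IsGalois.of_algEquiv (IntermediateField.liftAlgEquiv E₀')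
  haveI : FiniteDimensional (fixedFld q V) E₀ :=
    Module.Finite.equiv (IntermediateField.liftAlgEquiv E₀').toLinearEquiv
  -- membership in `E₀`
  have hE₀ : ∀ x : E, (x : PadicAlgCl q) ∈ E₀ ↔ ∀ σ ∈ I, σ x = x := by
    intro x
    rw [IntermediateField.mem_lift]
    exact IntermediateField.mem_fixedField_iff I x
  -- `σ ∈ I` iff `σ` fixes `E₀`
  have hfixI : ∀ σ : E ≃ₐ[fixedFld q V] E,
      σ ∈ I ↔ ∀ x : E, (x : PadicAlgCl q) ∈ E₀ → σ x = x := by
    intro σ
    constructor
    · intro hσ x hx
      exact (hE₀ x).1 hx σ hσ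
    · intro h
      rw [← IntermediateField.fixingSubgroup_fixedField I,
        IntermediateField.mem_fixingSubgroup_iff]
      intro x hx
      exact h x ((IntermediateField.mem_lift x).2 hx)
  refine ⟨E₀, inferInstance, inferInstance, hle, ?_, ?_⟩
  · -- unramified
    letI : Algebra E₀ E := (IntermediateField.inclusion hle).toAlgebra
    haveI : IsScalarTower (fixedFld q V) E₀ E := IsScalarTower.of_algebraMap_eq (fun _ => rfl)
    haveI : IsScalarTower ℚ_[q] E₀ E := IsScalarTower.of_algebraMap_eq (fun _ => rfl)
    have hH : ∀ σ : E ≃ₐ[fixedFld q V] E,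
        σ ∈ I ↔ ∀ x : E₀, σ (algebraMap E₀ E x) = algebraMap E₀ E x := by
      intro σ
      rw [hfixI]
      constructor
      · intro h x
        exact h (algebraMap E₀ E x) x.2
      · intro h x hx
        exact h ⟨(x : PadicAlgCl q), hx⟩
    exact ((Local.H483.tower_inertia ℤ_[q] ℚ_[q] (fixedFld q V) E E₀ I hmem hcard I hH).2).2
      le_rfl
  · -- the kernel of `V → Gal(E₀ / K_V)`
    intro w
    constructor
    · intro hw
      have hw' := (resHom_eq_one_iff q V E₀ w).1 hw
      have hιI : resHom q V E w ∈ I := by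
        rw [hfixI]
        intro x hx
        apply Subtype.ext
        rw [resHom_apply_coe]
        exact hw' x hx
      obtain ⟨i, hi, hiι⟩ := inertiaLift_of hO q V hV E (resHom q V E w) ((hmem' _).1 hιI)
      refine ⟨i, i⁻¹ * w, hi, ?_, ?_⟩
      · rw [map_mul, map_inv, hiι, inv_mul_cancel]
      · rw [mul_inv_cancel_left]
    · rintro ⟨i, n, hi, hn, rfl⟩
      rw [map_mul]
      have h1 : resHom q V E₀ n = 1 := by
        rw [resHom_eq_one_iff]
        intro x hx
        exact (resHom_eq_one_iff q V E n).1 hn x (hle hx)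
      have h2 : resHom q V E₀ i = 1 := by
        rw [resHom_eq_one_iff]
        intro x hx
        have hiI : resHom q V E i ∈ I := (hmem' _).2 (isInertialOn_resHom q V E i hi)
        have := (hfixI _).1 hiI ⟨x, hle hx⟩ hx
        have h3 := congrArg (fun z : E => (z : PadicAlgCl q)) this
        simp only [resHom_apply_coe] at h3
        exact h3
      rw [h1, h2, mul_one]

end Fermat.Agent.S55.G.Rec.Loc.H483
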